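import Fermat.Agent.S05.SameRed

/-!
# Row 38, WALL-p, leaf ELOC-ord, piece (F): first-order expansion of the addition law
(helper185; spec: `Fermat/Agent/Ribet/H375/ELOCOrdSpec.lean`, `FirstOrderStatement`)

Abstract setting: `K` a field with a valuation `v`, `W` a Weierstrass curve with `v`-integral
coefficients, `P = (x, y)` with `x` integral, `T = (X, Y)` with `1 < v X` (kernel of reduction).
Then `P + T = (x₃, y₃)` with
`(x₃ - x)(x - X)² = -Y (2y + a₁x + a₃) + X (3x² + 2a₂x + a₄ - a₁y) + (2a₆ - x³ + a₄x - a₃y)`,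
so that, if `2y + a₁x + a₃` is a unit, `v (x₃ - x) = v X / v Y < 1`.
-/

set_option autoImplicit false
set_option linter.unusedSectionVars false

namespace Fermat.Agent.Ribet.H185

open WeierstrassCurve WeierstrassCurve.Affine
open Fermat.Agent.S05.SameRed

variable {K : Type*} [Field K] [DecidableEq K]
  {Γ₀ : Type*} [LinearOrderedCommGroupWithZero Γ₀]
  {W : Affine K} {v : Valuation K Γ₀}

/-- On a Weierstrass curve with integral coefficients, a point with integral `x` has integral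
`y`. -/
theorem fo_val_y_le_one (hW : IntegralCoeffs W v) {x y : K} (h : W.Equation x y)
    (hx : v x ≤ 1) : v y ≤ 1 := by
  by_contra hy
  rw [not_le] at hy
  rw [equation_iff] at h
  have hy0 : 0 < v y := lt_trans zero_lt_one hy
  have h1 : v (W.a₁ * x + W.a₃) ≤ 1 := val_add_le_one (val_mul_le_one hW.a₁ hx) hW.a₃
  have h2 : v (y + (W.a₁ * x + W.a₃)) = v y :=
    v.map_add_eq_of_lt_left (lt_of_le_of_lt h1 hy)
  have h3 : v (x ^ 3 + W.a₂ * x ^ 2 + W.a₄ * x + W.a₆) ≤ 1 := by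
    have hx2 : v (x ^ 2) ≤ 1 := by rw [pow_two]; exact val_mul_le_one hx hx
    have hx3 : v (x ^ 3) ≤ 1 := by
      rw [pow_succ]; exact val_mul_le_one hx2 hx
    exact val_add_le_one (val_add_le_one (val_add_le_one hx3 (val_mul_le_one hW.a₂ hx2))
      (val_mul_le_one hW.a₄ hx)) hW.a₆
  have h4 : y * (y + (W.a₁ * x + W.a₃)) = x ^ 3 + W.a₂ * x ^ 2 + W.a₄ * x + W.a₆ := by
    linear_combination h
  have h5 : v y * v y ≤ 1 := by
    have := h3
    rw [← h4, map_mul, h2] at this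
    exact this
  have h6 : v y < v y * v y := lt_mul_of_one_lt_left hy0 hy
  exact absurd (hy.trans h6) (not_lt.mpr h5)

/-- On a Weierstrass curve with integral coefficients, a point `(X, Y)` with `1 < v X` has
`v X < v Y`. -/
theorem fo_val_X_lt_val_Y (hW : IntegralCoeffs W v) {X Y : K} (h : W.Equation X Y)
    (hX : 1 < v X) : v X < v Y ∧ v Y ^ 2 = v X ^ 3 := by
  rw [equation_iff] at h
  have hX0 : 0 < v X := lt_trans zero_lt_one hX
  have hX12 : v X < v X ^ 2 := by
    rw [pow_two]; exact lt_mul_of_one_lt_left hX0 hX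
  have hX23 : v X ^ 2 < v X ^ 3 := by
    rw [pow_succ (v X) 2]
    exact lt_mul_of_one_lt_right (pow_pos hX0 2) hX
  -- the right-hand side has valuation `v X ^ 3`
  have hR : v (X ^ 3 + W.a₂ * X ^ 2 + W.a₄ * X + W.a₆) = v X ^ 3 := by
    have e1 : v (W.a₂ * X ^ 2) ≤ v X ^ 2 := by
      rw [map_mul, map_pow]; exact mul_le_of_le_one_left' hW.a₂
    have e2 : v (W.a₄ * X) ≤ v X := by
      rw [map_mul]; exact mul_le_of_le_one_left' hW.a₄
    have s1 : v (X ^ 3 + W.a₂ * X ^ 2) = v X ^ 3 := by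
      rw [v.map_add_eq_of_lt_left (by rw [map_pow]; exact e1.trans_lt hX23), map_pow]
    have s2 : v (X ^ 3 + W.a₂ * X ^ 2 + W.a₄ * X) = v X ^ 3 := by
      rw [v.map_add_eq_of_lt_left (by rw [s1]; exact e2.trans_lt (hX12.trans hX23)), s1]
    rw [v.map_add_eq_of_lt_left (by
      rw [s2]; exact hW.a₆.trans_lt (hX.trans (hX12.trans hX23))), s2]
  have hL : Y * (Y + (W.a₁ * X + W.a₃)) = X ^ 3 + W.a₂ * X ^ 2 + W.a₄ * X + W.a₆ := by
    linear_combination h
  have hc : v (W.a₁ * X + W.a₃) ≤ v X := by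
    refine (v.map_add _ _).trans (max_le ?_ (hW.a₃.trans hX.le))
    rw [map_mul]; exact mul_le_of_le_one_left' hW.a₁
  have hlt : v X < v Y := by
    by_contra hle
    rw [not_lt] at hle
    have h1 : v (Y + (W.a₁ * X + W.a₃)) ≤ v X := (v.map_add _ _).trans (max_le hle hc)
    have h2 : v (Y * (Y + (W.a₁ * X + W.a₃))) ≤ v X ^ 2 := by
      rw [map_mul, pow_two]; exact mul_le_mul' hle h1
    rw [hL, hR] at h2
    exact absurd hX23 (not_lt.mpr h2)
  refine ⟨hlt, ?_⟩
  have h1 : v (Y + (W.a₁ * X + W.a₃)) = v Y := v.map_add_eq_of_lt_left (hc.trans_lt hlt)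
  have h2 := congrArg v hL
  rw [map_mul, h1, hR] at h2
  rw [pow_two]; exact h2

/-- **(F), abstract form.**  First-order expansion of the addition law at the origin. -/
theorem firstOrder_core (hW : IntegralCoeffs W v) (x y X Y : K) (h : W.Nonsingular x y)
    (hT : W.Nonsingular X Y) (hx : v x ≤ 1) (hX : 1 < v X)
    (hu : v (2 * y + W.a₁ * x + W.a₃) = 1) :
    ∃ (x₃ y₃ : K) (h₃ : W.Nonsingular x₃ y₃),
      Point.some x y h + Point.some X Y hT = Point.some x₃ y₃ h₃ ∧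
      v x₃ ≤ 1 ∧ v ((x₃ - x) * Y / X) = 1 := by
  have hxX : x ≠ X := by
    rintro rfl
    exact absurd hX (not_lt.mpr hx)
  have hy : v y ≤ 1 := fo_val_y_le_one hW h.1 hx
  obtain ⟨hXY, hYX⟩ := fo_val_X_lt_val_Y hW hT.1 hX
  have hX0 : 0 < v X := lt_trans zero_lt_one hX
  have hY0 : 0 < v Y := hX0.trans hXY
  have hXne : X ≠ 0 := fun h0 => by rw [h0, map_zero] at hX0; exact lt_irrefl _ hX0
  have hYne : Y ≠ 0 := fun h0 => by rw [h0, map_zero] at hY0; exact lt_irrefl _ hY0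
  have hd : x - X ≠ 0 := sub_ne_zero.mpr hxX
  refine ⟨W.addX x X (W.slope x X y Y), W.addY x X y (W.slope x X y Y),
    nonsingular_add h hT fun hxy => hxX hxy.left, Point.add_of_X_ne hxX, ?_⟩
  rw [slope_of_X_ne hxX]
  set ℓ : K := (y - Y) / (x - X) with hℓ
  have hℓd : ℓ * (x - X) = y - Y := by rw [hℓ]; field_simp
  have e1 := (equation_iff _ _).mp h.1
  have e2 := (equation_iff _ _).mp hT.1
  -- the exact identity
  have key : (W.addX x X ℓ - x) * (x - X) ^ 2 =
      -(Y * (2 * y + W.a₁ * x + W.a₃)) +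
        (X * (3 * x ^ 2 + 2 * W.a₂ * x + W.a₄ - W.a₁ * y) +
          (2 * W.a₆ - x ^ 3 + W.a₄ * x - W.a₃ * y)) := by
    have : (W.addX x X ℓ - x) * (x - X) ^ 2 =
        (ℓ * (x - X)) ^ 2 + W.a₁ * (ℓ * (x - X)) * (x - X) -
          (W.a₂ + 2 * x + X) * (x - X) ^ 2 := by
      simp only [Affine.addX]; ring
    rw [this, hℓd]
    linear_combination e1 + e2
  -- valuations
  have hx2 : v (x ^ 2) ≤ 1 := by rw [pow_two]; exact val_mul_le_one hx hx
  have hx3 : v (x ^ 3) ≤ 1 := by rw [pow_succ]; exact val_mul_le_one hx2 hx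
  have h2 : v (2 : K) ≤ 1 := by simpa using val_natCast_le_one (v := v) 2
  have h3 : v (3 : K) ≤ 1 := by simpa using val_natCast_le_one (v := v) 3
  have hc1 : v (3 * x ^ 2 + 2 * W.a₂ * x + W.a₄ - W.a₁ * y) ≤ 1 :=
    val_sub_le_one (val_add_le_one (val_add_le_one (val_mul_le_one h3 hx2)
      (val_mul_le_one (val_mul_le_one h2 hW.a₂) hx)) hW.a₄) (val_mul_le_one hW.a₁ hy)
  have hc0 : v (2 * W.a₆ - x ^ 3 + W.a₄ * x - W.a₃ * y) ≤ 1 :=
    val_sub_le_one (val_add_le_one (val_sub_le_one (val_mul_le_one h2 hW.a₆) hx3)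
      (val_mul_le_one hW.a₄ hx)) (val_mul_le_one hW.a₃ hy)
  have hm : v (-(Y * (2 * y + W.a₁ * x + W.a₃))) = v Y := by
    rw [Valuation.map_neg, map_mul, hu, mul_one]
  have hr : v (X * (3 * x ^ 2 + 2 * W.a₂ * x + W.a₄ - W.a₁ * y) +
      (2 * W.a₆ - x ^ 3 + W.a₄ * x - W.a₃ * y)) < v Y := by
    refine lt_of_le_of_lt (v.map_add _ _) (max_lt ?_ (hc0.trans_lt (hX.trans hXY)))
    rw [map_mul]
    exact lt_of_le_of_lt (mul_le_of_le_one_right' hc1) hXY
  have hkey : v ((W.addX x X ℓ - x) * (x - X) ^ 2) = v Y := by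
    rw [key, v.map_add_eq_of_lt_left (by rw [hm]; exact hr), hm]
  have hdv : v (x - X) = v X := by
    rw [v.map_sub_eq_of_lt_right (hx.trans_lt hX)]
  have hmain : v (W.addX x X ℓ - x) * v X ^ 2 = v Y := by
    rw [map_mul, map_pow, hdv] at hkey
    exact hkey
  have hXn : v X ≠ 0 := hX0.ne'
  have hYn : v Y ≠ 0 := hY0.ne'
  -- `v (x₃ - x) * v Y = v X`
  have hfin : v (W.addX x X ℓ - x) * v Y = v X := by
    have e : v (W.addX x X ℓ - x) * v Y * v X ^ 2 = v X * v X ^ 2 := by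
      calc v (W.addX x X ℓ - x) * v Y * v X ^ 2
          = (v (W.addX x X ℓ - x) * v X ^ 2) * v Y := mul_right_comm _ _ _
        _ = v Y ^ 2 := by rw [hmain, pow_two]
        _ = v X * v X ^ 2 := by rw [hYX, pow_succ' (v X) 2]
    exact mul_right_cancel₀ (pow_ne_zero 2 hXn) e
  constructor
  · -- integrality of `x₃`
    have hlt : v (W.addX x X ℓ - x) < 1 := by
      by_contra hge
      rw [not_lt] at hge
      have : v Y ≤ v (W.addX x X ℓ - x) * v Y := le_mul_of_one_le_left' hge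
      rw [hfin] at this
      exact absurd hXY (not_lt.mpr this)
    have : W.addX x X ℓ = (W.addX x X ℓ - x) + x := by ring
    rw [this]
    exact val_add_le_one hlt.le hx
  · rw [map_div₀, map_mul, hfin, div_self hXn]

end Fermat.Agent.Ribet.H185
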