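import Fermat.Agent.Ribet.H375.ELOCOrdSpec
import Fermat.Agent.Ribet.H185.FirstOrderCore

/-!
# Row 38, WALL-p, leaf ELOC-ord, piece (F): `H375.FirstOrderStatement` (helper185)

Adapter from the abstract form `H185.firstOrder_core` (valuation form, any value group) to the
exact frozen shape of `Fermat/Agent/Ribet/H375/ELOCOrdSpec.lean`.
-/

set_option autoImplicit false

namespace Fermat.Agent.Ribet.H185

open WeierstrassCurve WeierstrassCurve.Affine

/-- **(F)** first-order expansion of the addition law at the origin (exact Spec shape). -/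
theorem firstOrder : Fermat.Agent.Ribet.H375.FirstOrderStatement := by
  intro K _ _ A W hW x y X Y h hT hx hX hu
  have hx' : A.valuation x ≤ 1 := (A.valuation_le_one_iff x).mpr hx
  have hX' : 1 < A.valuation X := by
    rw [← not_le]
    exact fun hle => hX ((A.valuation_le_one_iff X).mp hle)
  obtain ⟨x₃, y₃, h₃, hadd, hx₃, hval⟩ := firstOrder_core hW x y X Y h hT hx' hX' hu
  exact ⟨x₃, y₃, h₃, hadd, (A.valuation_le_one_iff x₃).mp hx₃, hval⟩

end Fermat.Agent.Ribet.H185
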